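/-
Fermat/Agent/T1/Dict84/ChartNoeth.lean  (helper84)

Programme T1a (S19), brick G7 DICT, (D-NOETH):

(1) for a coordinate `t` (`X0.FF.IsGen K t`, characteristic zero) the field-level charts
    `Dict59.C0 t`, `Dict59.C1 t` are Dedekind domains (hence noetherian);
(2) for `E : Adapt96.ChartIso c t` the rings `R0`, `R1` of the two-chart ring are Dedekind domains
    (transfer along `E.e0`, `E.e1`), so all their ideals are finitely generated;
(3) every nonzero ideal of a Dedekind domain is an invertible module (`Module.Invertible`);
    in particular every nonzero ideal of `R0`, `R1`.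
-/
import Mathlib
import Fermat.Agent.T1.Dict59.Iface
import Fermat.Agent.T1.Adapt96.ToLinePair
import Fermat.Agent.AV.F1Model15.ChartAlg34.IntClosure
import Fermat.Agent.X0.FFSum

set_option autoImplicit false
set_option linter.unusedSectionVars false
set_option linter.style.haveILetI false

noncomputable section

universe u v

open scoped nonZeroDivisors
open Fermat.Agent.X0.FF Fermat.Agent.T1.Dict59 Fermat.Agent.AV.F1Model15.ChartAlg34
open Fermat.Agent.Jac

namespace Fermat.Agent.T1.Dict84

/-! ### (3) nonzero ideals of a Dedekind domain are invertible modules -/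

section Invertible

/-- Dedekind domains are stable under ring isomorphisms. -/
theorem isDedekindDomain_of_equiv {R S : Type*} [CommRing R] [CommRing S] (e : R ≃+* S)
    [IsDedekindDomain R] : IsDedekindDomain S := by
  haveI : IsDomain S := e.symm.toMulEquiv.isDomain R
  haveI : IsNoetherianRing S := isNoetherianRing_of_ringEquiv R e
  haveI : Ring.DimensionLEOne S := Ring.DimensionLEOne.of_ringEquiv e.symm
  haveI : IsIntegrallyClosed S := IsIntegrallyClosed.of_equiv e
  exact { }

/-- **A nonzero ideal of a Dedekind domain is an invertible module.** -/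
theorem invertible_of_ne_bot {R : Type*} [CommRing R] [IsDedekindDomain R] (I : Ideal R)
    (hI : I ≠ ⊥) : Module.Invertible R I := by
  have hI' : (I : FractionalIdeal R⁰ (FractionRing R)) ≠ 0 :=
    FractionalIdeal.coeIdeal_ne_zero.2 hI
  let u : (FractionalIdeal R⁰ (FractionRing R))ˣ := Units.mk0 _ hI'
  let v : (Submodule R (FractionRing R))ˣ :=
    Units.map (FractionalIdeal.coeSubmoduleHom R⁰ (FractionRing R)).toMonoidHom u
  have hv : (v : Submodule R (FractionRing R)) =
      Submodule.map (Algebra.linearMap R (FractionRing R)) I := by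
    show ((I : FractionalIdeal R⁰ (FractionRing R)) : Submodule R (FractionRing R)) = _
    rw [FractionalIdeal.coe_coeIdeal]
    rfl
  have e : I ≃ₗ[R] (v : Submodule R (FractionRing R)) :=
    (Submodule.equivMapOfInjective (Algebra.linearMap R (FractionRing R))
      (IsFractionRing.injective R (FractionRing R)) I).trans (LinearEquiv.ofEq _ _ hv.symm)
  exact Module.Invertible.congr e.symm

end Invertible

/-! ### (1) the field-level charts are Dedekind -/

section Charts

variable {K : Type*} {F : Type*} [Field K] [Field F] [Algebra K F] [CharZero K] {t : F}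

theorem isDedekindDomain_C0 (ht : IsGen K t) : IsDedekindDomain (C0 (K := K) t) := by
  haveI := ht.finite
  haveI := isSeparable_adjoin_simple (K := K) t
  exact isDedekindDomain_intCl ht.transcendental

theorem isDedekindDomain_C1 (ht : IsGen K t) : IsDedekindDomain (C1 (K := K) t) :=
  isDedekindDomain_C0 (t := t⁻¹) ht.inv

theorem isNoetherianRing_C0' (ht : IsGen K t) : IsNoetherianRing (C0 (K := K) t) :=
  haveI := isDedekindDomain_C0 ht
  inferInstance

theorem isNoetherianRing_C1' (ht : IsGen K t) : IsNoetherianRing (C1 (K := K) t) :=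
  haveI := isDedekindDomain_C1 ht
  inferInstance

theorem isFractionRing_C0 (ht : IsGen K t) : IsFractionRing (C0 (K := K) t) F := by
  haveI := ht.finite
  exact isFractionRing_intCl ht.transcendental

theorem isFractionRing_C1 (ht : IsGen K t) : IsFractionRing (C1 (K := K) t) F :=
  isFractionRing_C0 (t := t⁻¹) ht.inv

end Charts

/-! ### (2) transfer to the two-chart ring through a `ChartIso` -/

section ChartIso

variable {K R0 R1 R01 : Type u} [Field K] [CommRing R0] [CommRing R1] [CommRing R01]
  [Algebra K R0] [Algebra K R1] [Algebra K R01] [Algebra R0 R01] [Algebra R1 R01]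
  [IsScalarTower K R0 R01] [IsScalarTower K R1 R01]
  {F : Type v} [Field F] [Algebra K F] [CharZero K]
  {c : TwoChart K R0 R1 R01} {t : F} (E : Adapt96.ChartIso c t) (ht : IsGen K t)

include E ht

theorem isDedekindDomain_R0 : IsDedekindDomain R0 :=
  haveI := isDedekindDomain_C0 ht
  isDedekindDomain_of_equiv E.e0.symm

theorem isDedekindDomain_R1 : IsDedekindDomain R1 :=
  haveI := isDedekindDomain_C1 ht
  isDedekindDomain_of_equiv E.e1.symm

theorem isNoetherianRing_R0 : IsNoetherianRing R0 :=
  haveI := isDedekindDomain_R0 E ht
  inferInstance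

theorem isNoetherianRing_R1 : IsNoetherianRing R1 :=
  haveI := isDedekindDomain_R1 E ht
  inferInstance

theorem ideal_fg_R0 (I : Ideal R0) : I.FG :=
  haveI := isNoetherianRing_R0 E ht
  IsNoetherian.noetherian I

theorem ideal_fg_R1 (I : Ideal R1) : I.FG :=
  haveI := isNoetherianRing_R1 E ht
  IsNoetherian.noetherian I

/-- Every nonzero ideal of `R0` is an invertible module. -/
theorem invertible_ideal_R0 (I : Ideal R0) (hI : I ≠ ⊥) : Module.Invertible R0 I :=
  haveI := isDedekindDomain_R0 E ht
  invertible_of_ne_bot I hI

/-- Every nonzero ideal of `R1` is an invertible module. -/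
theorem invertible_ideal_R1 (I : Ideal R1) (hI : I ≠ ⊥) : Module.Invertible R1 I :=
  haveI := isDedekindDomain_R1 E ht
  invertible_of_ne_bot I hI

end ChartIso

end Fermat.Agent.T1.Dict84

end
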