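/-
Fermat/Agent/T1/Dict84/PtPairGen.lean  (helper84)

Programme T1a (S19), brick G7 DICT, statement `ExistsPtPair` of `Dict59/Iface2.lean`: GENERIC part.

For fields `K₁ ⊆ F₁`, a ring homomorphism `φ : F₁ → F₂`, a place `w` of `F₂ / K₂` whose valuation
ring contains `φ K₁`, and a coordinate `t : F₁` (`IsGen K₁ t`), the "ideal sheaf of the point `w`"

  `I_0 = {x ∈ C0 t | t regular at w → x(w) = 0}`,  `I_1 = {x ∈ C1 t | t⁻¹ regular at w → x(w) = 0}`

is a line pair: the two modules are finitely generated (the charts are Dedekind domains), nonzero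
(hypotheses `hne0`, `hne1`: some nonzero function of the chart vanishes at `w`; see
`exists_vanishing` for the source of such functions) and agree on the overlap.
-/
import Mathlib
import Fermat.Agent.T1.Dict59.Iface2
import Fermat.Agent.T1.Dict59.OrdInf
import Fermat.Agent.T1.Dict59.DivCalc
import Fermat.Agent.AV.F1Model15.ChartAlg34.Away
import Fermat.Agent.X0.FFSum

set_option autoImplicit false
set_option linter.unusedSectionVars false
set_option linter.style.haveILetI false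

noncomputable section

open AlgebraicCurve IntermediateField
open Fermat.Agent.X0.FF Fermat.Agent.T1.Dict59 Fermat.Agent.AV.F1Model15.ChartAlg34

namespace Fermat.Agent.T1.Dict84

variable {K₁ F₁ K₂ F₂ : Type*} [Field K₁] [Field F₁] [Algebra K₁ F₁] [Field K₂] [Field F₂]
  [Algebra K₂ F₂] (φ : F₁ →+* F₂) (w : Place K₂ F₂)

/-! ### The ideal of functions of a chart vanishing at `w` (if the chart contains `w`) -/

/-- `{x ∈ C | reg → x = 0 ∨ 0 < ord_w (φ x)}` as a `C`-submodule of `F₁`; `reg` is the condition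
"the chart `C` contains the point `w`". -/
def ptIdeal (C : Subalgebra K₁ F₁) (reg : Prop)
    (hC : reg → ∀ c ∈ C, φ c ∈ w.toValuationSubring) : Submodule C F₁ where
  carrier := {x | x ∈ C ∧ (reg → x = 0 ∨ 0 < w.ord (φ x))}
  zero_mem' := ⟨C.zero_mem, fun _ => Or.inl rfl⟩
  add_mem' := by
    rintro x y ⟨hx, hx'⟩ ⟨hy, hy'⟩
    refine ⟨C.add_mem hx hy, fun hr => ?_⟩
    by_cases hxy : x + y = 0
    · exact Or.inl hxy
    right
    rcases hx' hr with rfl | hxp
    · rcases hy' hr with rfl | hyp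
      · exact absurd (by simp) hxy
      · simpa using hyp
    rcases hy' hr with rfl | hyp
    · simpa using hxp
    have h := ord_add_ge w (f := φ x) (g := φ y)
      (by rw [← map_add]; exact (map_ne_zero φ).2 hxy)
    rw [map_add]
    exact lt_of_lt_of_le (lt_min hxp hyp) h
  smul_mem' := by
    rintro ⟨c, hc⟩ x ⟨hx, hx'⟩
    refine ⟨C.mul_mem hc hx, fun hr => ?_⟩
    show c * x = 0 ∨ 0 < w.ord (φ (c * x))
    by_cases hcx : c * x = 0
    · exact Or.inl hcx
    right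
    have hc0 : c ≠ 0 := left_ne_zero_of_mul hcx
    have hx0 : x ≠ 0 := right_ne_zero_of_mul hcx
    rw [map_mul, w.ord_mul ((map_ne_zero φ).2 hc0) ((map_ne_zero φ).2 hx0)]
    have h1 : 0 ≤ w.ord (φ c) := ord_nonneg_of_mem w (hC hr c hc)
    have h2 : 0 < w.ord (φ x) := (hx' hr).resolve_left hx0
    omega

theorem mem_ptIdeal {C : Subalgebra K₁ F₁} {reg : Prop}
    {hC : reg → ∀ c ∈ C, φ c ∈ w.toValuationSubring} {x : F₁} :
    x ∈ ptIdeal φ w C reg hC ↔ x ∈ C ∧ (reg → x = 0 ∨ 0 < w.ord (φ x)) := Iff.rfl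

/-- Over a noetherian chart the ideal of a point is finitely generated. -/
theorem ptIdeal_fg (C : Subalgebra K₁ F₁) [IsNoetherianRing C] (reg : Prop)
    (hC : reg → ∀ c ∈ C, φ c ∈ w.toValuationSubring) : (ptIdeal φ w C reg hC).FG := by
  have h1 : ptIdeal φ w C reg hC =
      Submodule.map (Algebra.linearMap C F₁)
        (Submodule.comap (Algebra.linearMap C F₁) (ptIdeal φ w C reg hC)) := by
    rw [Submodule.map_comap_eq, inf_eq_right.2]
    intro x hx
    exact ⟨⟨x, hx.1⟩, rfl⟩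
  rw [h1]
  exact (IsNoetherian.noetherian _).map _

theorem ptIdeal_ne_bot (C : Subalgebra K₁ F₁) (reg : Prop)
    (hC : reg → ∀ c ∈ C, φ c ∈ w.toValuationSubring)
    (hne : reg → ∃ x ∈ C, x ≠ 0 ∧ 0 < w.ord (φ x)) : ptIdeal φ w C reg hC ≠ ⊥ := by
  classical
  intro h
  by_cases hr : reg
  · obtain ⟨x, hx, hx0, hxp⟩ := hne hr
    have : x ∈ ptIdeal φ w C reg hC := ⟨hx, fun _ => Or.inr hxp⟩
    rw [h, Submodule.mem_bot] at this
    exact hx0 this
  · have : (1 : F₁) ∈ ptIdeal φ w C reg hC := ⟨C.one_mem, fun h' => absurd h' hr⟩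
    rw [h, Submodule.mem_bot] at this
    exact one_ne_zero this

/-! ### The overlap condition -/

/-- Passage from the chart of `s` to the chart of `s⁻¹`: multiply by a power of `s⁻¹`. -/
theorem ov_aux {s : F₁} (hs : s ≠ 0) {x : F₁} (hx : x ∈ intCl K₁ s)
    (hvan : φ s ∈ w.toValuationSubring → x = 0 ∨ 0 < w.ord (φ x)) :
    ∃ k : ℕ, s⁻¹ ^ k * x ∈ intCl K₁ s⁻¹ ∧
      (φ s⁻¹ ∈ w.toValuationSubring → s⁻¹ ^ k * x = 0 ∨ 0 < w.ord (φ (s⁻¹ ^ k * x))) := by
  rcases eq_or_ne x 0 with rfl | hx0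
  · exact ⟨0, by simp [Subalgebra.zero_mem], fun _ => Or.inl (by simp)⟩
  obtain ⟨n, hn⟩ := (mem_intCl01_iff_inv (K := K₁) hs x).1 (intCl_le_intCl01 s hx)
  set m : ℕ := (w.ord (φ x)).natAbs + 1 with hm
  refine ⟨m + n, ?_, fun hinv => Or.inr ?_⟩
  · rw [pow_add, mul_assoc]
    exact Subalgebra.mul_mem _ (Subalgebra.pow_mem _ (self_mem_intCl s⁻¹) m) hn
  · have hsi : s⁻¹ ≠ 0 := inv_ne_zero hs
    have hφs : φ s ≠ 0 := (map_ne_zero φ).2 hs
    have hφx : φ x ≠ 0 := (map_ne_zero φ).2 hx0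
    rw [map_mul, map_pow, w.ord_mul (pow_ne_zero _ ((map_ne_zero φ).2 hsi)) hφx, ord_pow,
      map_inv₀, w.ord_inv]
    have ha : 0 ≤ -w.ord (φ s) := by
      have := ord_nonneg_of_mem w hinv
      rwa [map_inv₀, w.ord_inv] at this
    by_cases hreg : φ s ∈ w.toValuationSubring
    · have h1 : 0 ≤ w.ord (φ s) := ord_nonneg_of_mem w hreg
      have h0 : w.ord (φ s) = 0 := by omega
      have h2 : 0 < w.ord (φ x) := (hvan hreg).resolve_left hx0
      rw [h0]
      simpa using h2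
    · have h1 : w.ord (φ s) < 0 := by
        by_contra hcon
        exact hreg (mem_of_ord_nonneg w (not_lt.1 hcon))
      have h2 : (1 : ℤ) ≤ -w.ord (φ s) := by omega
      have hN : ((w.ord (φ x)).natAbs : ℤ) + 1 ≤ ((m + n : ℕ) : ℤ) := by
        rw [hm]; push_cast; omega
      have h3 : ((m + n : ℕ) : ℤ) ≤ ((m + n : ℕ) : ℤ) * (-w.ord (φ s)) :=
        le_mul_of_one_le_right (by positivity) h2
      have h4 : -(w.ord (φ x)) ≤ ((w.ord (φ x)).natAbs : ℤ) := by
        rw [← Int.natAbs_neg]; exact Int.le_natAbs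
      linarith

/-! ### The point pair -/

section Pair

variable [CharZero K₁] {t : F₁} (hgen : IsGen K₁ t)

include hgen

theorem isNoetherianRing_C0 : IsNoetherianRing (C0 (K := K₁) t) := by
  haveI := hgen.finite
  haveI := isSeparable_adjoin_simple (K := K₁) t
  haveI : IsDedekindDomain (intCl K₁ t) := isDedekindDomain_intCl hgen.transcendental
  show IsNoetherianRing (intCl K₁ t)
  infer_instance

theorem isNoetherianRing_C1 : IsNoetherianRing (C1 (K := K₁) t) :=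
  isNoetherianRing_C0 (t := t⁻¹) hgen.inv

/-- **The line pair of a point, generic form.** -/
theorem exists_ptPair_gen
    (hK : ∀ a : K₁, φ (algebraMap K₁ F₁ a) ∈ w.toValuationSubring)
    (hne0 : φ t ∈ w.toValuationSubring →
      ∃ x ∈ C0 (K := K₁) t, x ≠ 0 ∧ 0 < w.ord (φ x))
    (hne1 : φ t⁻¹ ∈ w.toValuationSubring →
      ∃ x ∈ C1 (K := K₁) t, x ≠ 0 ∧ 0 < w.ord (φ x)) :
    ∃ P : LinePair K₁ t,
      (∀ x, x ∈ P.I0 ↔ x ∈ C0 (K := K₁) t ∧
        (φ t ∈ w.toValuationSubring → x = 0 ∨ 0 < w.ord (φ x))) ∧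
      (∀ x, x ∈ P.I1 ↔ x ∈ C1 (K := K₁) t ∧
        (φ t⁻¹ ∈ w.toValuationSubring → x = 0 ∨ 0 < w.ord (φ x))) := by
  haveI := isNoetherianRing_C0 hgen
  haveI := isNoetherianRing_C1 hgen
  have ht0 : t ≠ 0 := hgen.ne_zero
  have hC0 : φ t ∈ w.toValuationSubring → ∀ c ∈ C0 (K := K₁) t, φ c ∈ w.toValuationSubring :=
    fun h => map_C0_mem φ w hK h
  have hC1 : φ t⁻¹ ∈ w.toValuationSubring →
      ∀ c ∈ C1 (K := K₁) t, φ c ∈ w.toValuationSubring :=
    fun h => map_C0_mem φ w hK h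
  refine ⟨{ I0 := ptIdeal φ w (C0 (K := K₁) t) (φ t ∈ w.toValuationSubring) hC0
            I1 := ptIdeal φ w (C1 (K := K₁) t) (φ t⁻¹ ∈ w.toValuationSubring) hC1
            fg0 := ptIdeal_fg φ w _ _ hC0
            fg1 := ptIdeal_fg φ w _ _ hC1
            ne0 := ptIdeal_ne_bot φ w _ _ hC0 hne0
            ne1 := ptIdeal_ne_bot φ w _ _ hC1 hne1
            ov01 := ?_
            ov10 := ?_ }, fun x => Iff.rfl, fun x => Iff.rfl⟩
  · rintro x ⟨hx, hx'⟩
    obtain ⟨k, hk, hk'⟩ := ov_aux φ w ht0 (x := x) hx hx'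
    exact ⟨k, hk, hk'⟩
  · rintro x ⟨hx, hx'⟩
    obtain ⟨k, hk, hk'⟩ := ov_aux φ w (inv_ne_zero ht0) (x := x) hx hx'
    rw [inv_inv] at hk hk'
    exact ⟨k, hk, hk'⟩

end Pair

end Fermat.Agent.T1.Dict84

end
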