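/-
Fermat/Agent/T1/Dict84/ExistsPtPair.lean  (helper84)

Programme T1a (S19), brick G7 DICT: **`ExistsPtPair`** of `Dict59/Iface2.lean` — the ideal sheaf of
a point `w` of the `ℚ̄`-curve is a line pair over every intermediate field `L` (rationality of `w`
is not needed for the existence).

* `exists_vanishing` (generic): for `K₁ ⊆ K₂` algebraic, `K₂` algebraically closed, a place `w` of
  `F₂ / K₂` and `t : F₁` transcendental over `K₁` with `φ t` regular at `w`, some nonzero polynomial
  in `t` with coefficients in `K₁` vanishes at `w` (the minimal polynomial of the value `t(w)`);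
* `existsPtPair M : ExistsPtPair M`.
-/
import Mathlib
import Fermat.Agent.T1.Dict84.PtPairGen
import Fermat.Agent.ES.RED.PlaceValue13

set_option autoImplicit false
set_option linter.unusedSectionVars false
set_option linter.style.haveILetI false
set_option synthInstance.maxHeartbeats 400000
set_option maxHeartbeats 1000000

noncomputable section

open AlgebraicCurve IntermediateField ModularCurve
open Fermat.Agent.X0.FF Fermat.Agent.T1.Dict59 Fermat.Agent.AV.F1Model15.ChartAlg34
open Fermat.Agent.ES.RED.PlaceValue13 Fermat.Agent.RED.Interface4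

namespace Fermat.Agent.T1.Dict84

section Generic

variable {K₁ F₁ K₂ F₂ : Type*} [Field K₁] [Field F₁] [Algebra K₁ F₁] [Field K₂] [Field F₂]
  [Algebra K₂ F₂] (φ : F₁ →+* F₂) (w : Place K₂ F₂)

/-- A nonzero polynomial in `t` over `K₁` vanishing at the place `w` (where `t` is regular). -/
theorem exists_vanishing [Algebra K₁ K₂] [Algebra.IsAlgebraic K₁ K₂] [IsAlgClosed K₂] {x₂ : F₂}
    (hx₂ : IsGen K₂ x₂)
    (hφ : ∀ a : K₁, φ (algebraMap K₁ F₁ a) = algebraMap K₂ F₂ (algebraMap K₁ K₂ a))
    {t : F₁} (ht : Transcendental K₁ t) (htw : φ t ∈ w.toValuationSubring) :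
    ∃ x ∈ Algebra.adjoin K₁ ({t} : Set F₁), x ≠ 0 ∧ 0 < w.ord (φ x) := by
  set tw : w.toValuationSubring := ⟨φ t, htw⟩ with htw'
  set c : K₂ := valueHom hx₂ w tw with hc
  have hci : IsIntegral K₁ c := (Algebra.IsAlgebraic.isAlgebraic c).isIntegral
  have hp0 : minpoly K₁ c ≠ 0 := minpoly.ne_zero hci
  refine ⟨Polynomial.aeval t (minpoly K₁ c), Polynomial.aeval_mem_adjoin_singleton _ _, ?_, ?_⟩
  · intro h
    exact ht ⟨minpoly K₁ c, hp0, h⟩
  · have hx0 : Polynomial.aeval t (minpoly K₁ c) ≠ 0 := fun h => ht ⟨minpoly K₁ c, hp0, h⟩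
    set ψ : K₁ →+* w.toValuationSubring :=
      (algebraMap K₂ w.toValuationSubring).comp (algebraMap K₁ K₂) with hψ
    have hsub : (w.toValuationSubring.subtype).comp ψ = φ.comp (algebraMap K₁ F₁) := by
      ext a
      show ((algebraMap K₂ w.toValuationSubring (algebraMap K₁ K₂ a) : w.toValuationSubring) : F₂) =
        φ (algebraMap K₁ F₁ a)
      rw [hφ]
      rfl
    have hmem : φ (Polynomial.aeval t (minpoly K₁ c)) =
        ((Polynomial.eval₂ ψ tw (minpoly K₁ c) : w.toValuationSubring) : F₂) := by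
      have h1 : ((Polynomial.eval₂ ψ tw (minpoly K₁ c) : w.toValuationSubring) : F₂) =
          w.toValuationSubring.subtype (Polynomial.eval₂ ψ tw (minpoly K₁ c)) := rfl
      rw [h1, Polynomial.hom_eval₂, hsub, Polynomial.aeval_def, Polynomial.hom_eval₂]
      rfl
    have hval : valueHom hx₂ w (Polynomial.eval₂ ψ tw (minpoly K₁ c)) = 0 := by
      have h2 : ((valueHom hx₂ w : w.toValuationSubring →ₐ[K₂] K₂) : w.toValuationSubring →+* K₂).comp ψ =
          algebraMap K₁ K₂ := by
        ext a
        show valueHom hx₂ w (algebraMap K₂ w.toValuationSubring (algebraMap K₁ K₂ a)) = _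
        rw [AlgHom.commutes]
        rfl
      have h3 := Polynomial.hom_eval₂ (minpoly K₁ c) ψ
        ((valueHom hx₂ w : w.toValuationSubring →ₐ[K₂] K₂) : w.toValuationSubring →+* K₂) tw
      rw [h2] at h3
      have h4 : Polynomial.eval₂ (algebraMap K₁ K₂) c (minpoly K₁ c) = 0 := by
        rw [← Polynomial.aeval_def]; exact minpoly.aeval K₁ c
      exact h3.trans h4
    rw [valueHom_eq_zero_iff_ord] at hval
    rw [hmem]
    refine hval.resolve_left ?_
    rw [← hmem]
    exact (map_ne_zero φ).2 hx0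

end Generic

/-! ### The concrete statement -/

section Concrete

variable (M : ℕ) [NeZero M]

theorem existsPtPair : ExistsPtPair M := by
  intro L t hcoord w _
  have hK : ∀ a : L, cL M L (algebraMap L (FK M L) a) ∈ w.toValuationSubring := cL_const_mem w
  have hφ : ∀ a : L, cL M L (algebraMap L (FK M L) a) =
      algebraMap Qbar (Fbar M) (algebraMap L Qbar a) := cL_algebraMap
  have hgen2 := Fermat.Agent.RED.TOP.FbarFacts20.isGen_j M
  haveI h0 : Algebra.IsAlgebraic ℚ Qbar := by
    first
    | infer_instance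
    | (have h : (DivisionRing.toRatAlgebra : Algebra ℚ (AlgebraicClosure ℚ)) =
          AlgebraicClosure.instAlgebra ℚ := Subsingleton.elim _ _
       rw [h]; infer_instance)
  haveI : Algebra.IsAlgebraic (↥L) Qbar := Algebra.IsAlgebraic.tower_top (K := ℚ) L
  have hcoord' : IsGen L t⁻¹ := hcoord.inv
  have hne0 : cL M L t ∈ w.toValuationSubring →
      ∃ x ∈ C0 (K := L) t, x ≠ 0 ∧ 0 < w.ord (cL M L x) := by
    intro htw
    obtain ⟨x, hx, hx0, hxp⟩ := exists_vanishing (cL M L) w hgen2 hφ hcoord.transcendental htw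
    exact ⟨x, adjoin_le_intCl t hx, hx0, hxp⟩
  have hne1 : cL M L t⁻¹ ∈ w.toValuationSubring →
      ∃ x ∈ C1 (K := L) t, x ≠ 0 ∧ 0 < w.ord (cL M L x) := by
    intro htw
    obtain ⟨x, hx, hx0, hxp⟩ := exists_vanishing (cL M L) w hgen2 hφ hcoord'.transcendental htw
    exact ⟨x, adjoin_le_intCl t⁻¹ hx, hx0, hxp⟩
  obtain ⟨P, h0, h1⟩ := exists_ptPair_gen (cL M L) w hcoord hK hne0 hne1
  exact ⟨P, h0, h1⟩

end Concrete

end Fermat.Agent.T1.Dict84

end
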